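/-
Fermat/Agent/Jac/AbelJacobi81/OfClass.lean (helper81)

Brick Q3a, scheme side, part (Y): by Yoneda, a natural family of classes on the affine schemes
over `X` (`ClassFamily P p`) is given by ONE class over the base `X` itself.
-/
import Mathlib
import Fermat.Agent.Jac.AbelJacobi73.PowerFamily

set_option autoImplicit false

noncomputable section

universe u

open CategoryTheory CategoryTheory.Limits AlgebraicGeometry AlgebraicGeometry.RelPicard
  NeronModelInfra GoodReductionJacobian

namespace Fermat.Agent.Jac.AbelJacobi81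

open PointsBridge79 PointsBridge79Shell AbelJacobi73

variable {R : Type u} [CommRing R] {C : Scheme.{u}} {c : C ⟶ Spec (CommRingCat.of R)}
  {ε : SchemeHomOver (𝟙 (Spec (CommRingCat.of R))) c} {P : SubPicCondition c ε}

/-- The family of classes on the affine schemes over `X` given by pulling back one class over
`X` itself. -/
def ofClass {X : Scheme.{u}} {p : X ⟶ Spec (CommRingCat.of R)} (ξ : PClass P p) :
    ClassFamily P p where
  cls _ ψ := PClass.map P (⟨ψ, rfl⟩ : SchemeHomOver (ψ ≫ p) p) ξ
  natural _ _ φ ψ := by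
    rw [PClass.map_map]
    exact PClass.map_congr P _ _ rfl ξ

theorem ofClass_cls {X : Scheme.{u}} {p : X ⟶ Spec (CommRingCat.of R)} (ξ : PClass P p)
    (B : CommRingCat.{u}) (ψ : Spec B ⟶ X) :
    (ofClass ξ).cls B ψ = PClass.map P (⟨ψ, rfl⟩ : SchemeHomOver (ψ ≫ p) p) ξ := rfl

/-- The value of `ofClass ξ` at an affine point with prescribed structure morphism. -/
theorem clsAt_ofClass {X : Scheme.{u}} {p : X ⟶ Spec (CommRingCat.of R)} (ξ : PClass P p)
    (B : CommRingCat.{u}) (ψ : Spec B ⟶ X) (t : Spec B ⟶ Spec (CommRingCat.of R))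
    (ht : ψ ≫ p = t) :
    clsAt (ofClass ξ) B ψ t ht = PClass.map P (⟨ψ, ht⟩ : SchemeHomOver t p) ξ := by
  subst ht
  rfl

/-- The family attached to the class of a rigidified bundle over `X`. -/
def ofBundle {X : Scheme.{u}} {p : X ⟶ Spec (CommRingCat.of R)}
    (M : RigidifiedLineBundle c ε p) (hM : P.P p M) : ClassFamily P p :=
  ofClass (PClass.mk P p M hM)

theorem clsAt_ofBundle {X : Scheme.{u}} {p : X ⟶ Spec (CommRingCat.of R)}
    (M : RigidifiedLineBundle c ε p) (hM : P.P p M)
    (B : CommRingCat.{u}) (ψ : Spec B ⟶ X) (t : Spec B ⟶ Spec (CommRingCat.of R))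
    (ht : ψ ≫ p = t) :
    clsAt (ofBundle M hM) B ψ t ht =
      PClass.mk P t (M.pullbackAlong (⟨ψ, ht⟩ : SchemeHomOver t p))
        (P.pullback_mem _ _ _ _ hM) := by
  rw [ofBundle, clsAt_ofClass, PClass.map_mk]

end Fermat.Agent.Jac.AbelJacobi81
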