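/-
Fermat/Agent/Jac/AbelJacobi81/Pb.lean  (helper81) -- S25 programme, brick Q3a (scheme side).

Bookkeeping for pullbacks of sheaves of modules on `C ×ₖ T` along morphisms of the base `T` over
`Spec k` (`pb ψ N := (baseChangeSnd c ψ)^* N`), up to (non-canonical) isomorphism:

* `pb_comp`, `pb_congr`, `pb_iso`, `pb_square` (two factorizations of the same morphism),
* `pb_id`,
* `isInvertible_pb`,
* `rig_pb` : pulling back along the rigidifying section commutes with `pb`.
-/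
import Mathlib
import Fermat.Agent.Jac.RepInterface

set_option autoImplicit false

universe u

open CategoryTheory CategoryTheory.Limits AlgebraicGeometry AlgebraicGeometry.RelPicard
  NeronModelInfra

noncomputable section

namespace Fermat.Agent.Jac.AbelJacobi81

variable {R : Type u} [CommRing R] {C : Scheme.{u}} {c : C ⟶ Spec (CommRingCat.of R)}
  {ε : SchemeHomOver (𝟙 (Spec (CommRingCat.of R))) c}

/-- Pullback of a sheaf of modules on `C ×ₖ T` along a morphism `T' ⟶ T` over `Spec k`. -/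
abbrev pb {T T' : Scheme.{u}} {t : T ⟶ Spec (CommRingCat.of R)}
    {t' : T' ⟶ Spec (CommRingCat.of R)} (ψ : SchemeHomOver t' t) (N : (pullback c t).Modules) :
    (pullback c t').Modules :=
  (Scheme.Modules.pullback (baseChangeSnd c ψ)).obj N

theorem pb_iso {T T' : Scheme.{u}} {t : T ⟶ Spec (CommRingCat.of R)}
    {t' : T' ⟶ Spec (CommRingCat.of R)} (ψ : SchemeHomOver t' t) {N N' : (pullback c t).Modules}
    (e : Nonempty (N ≅ N')) : Nonempty (pb ψ N ≅ pb ψ N') :=
  ⟨(Scheme.Modules.pullback (baseChangeSnd c ψ)).mapIso e.some⟩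

theorem pb_congr {T T' : Scheme.{u}} {t : T ⟶ Spec (CommRingCat.of R)}
    {t' : T' ⟶ Spec (CommRingCat.of R)} {ψ ψ' : SchemeHomOver t' t} (h : ψ.1 = ψ'.1)
    (N : (pullback c t).Modules) : Nonempty (pb ψ N ≅ pb ψ' N) := by
  have : ψ = ψ' := Subtype.ext h
  subst this
  exact ⟨Iso.refl _⟩

theorem pb_comp {T T' T'' : Scheme.{u}} {t : T ⟶ Spec (CommRingCat.of R)}
    {t' : T' ⟶ Spec (CommRingCat.of R)} {t'' : T'' ⟶ Spec (CommRingCat.of R)}
    (φ : SchemeHomOver t' t) (ψ : SchemeHomOver t'' t') (N : (pullback c t).Modules) :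
    Nonempty (pb ψ (pb φ N) ≅ pb (postComp φ ψ) N) :=
  ⟨(Scheme.Modules.pullbackComp _ _).app N ≪≫
    (Scheme.Modules.pullbackCongr (baseChangeSnd_comp c φ ψ)).app N⟩

/-- Two factorizations of the same morphism over `Spec k` give isomorphic pullbacks. -/
theorem pb_comp_of_eq {T T' T'' : Scheme.{u}} {t : T ⟶ Spec (CommRingCat.of R)}
    {t' : T' ⟶ Spec (CommRingCat.of R)} {t'' : T'' ⟶ Spec (CommRingCat.of R)}
    (φ : SchemeHomOver t' t) (ψ : SchemeHomOver t'' t') (χ : SchemeHomOver t'' t)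
    (h : ψ.1 ≫ φ.1 = χ.1) (N : (pullback c t).Modules) :
    Nonempty (pb ψ (pb φ N) ≅ pb χ N) := by
  obtain ⟨e⟩ := pb_comp φ ψ N
  obtain ⟨e'⟩ := pb_congr (ψ := postComp φ ψ) (ψ' := χ) h N
  exact ⟨e ≪≫ e'⟩

/-- Two factorizations of the same morphism over `Spec k` through different intermediate bases
give isomorphic pullbacks. -/
theorem pb_square {T T₁ T₂ T'' : Scheme.{u}} {t : T ⟶ Spec (CommRingCat.of R)}
    {t₁ : T₁ ⟶ Spec (CommRingCat.of R)} {t₂ : T₂ ⟶ Spec (CommRingCat.of R)}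
    {t'' : T'' ⟶ Spec (CommRingCat.of R)}
    (φ₁ : SchemeHomOver t₁ t) (ψ₁ : SchemeHomOver t'' t₁)
    (φ₂ : SchemeHomOver t₂ t) (ψ₂ : SchemeHomOver t'' t₂)
    (h : ψ₁.1 ≫ φ₁.1 = ψ₂.1 ≫ φ₂.1) (N : (pullback c t).Modules) :
    Nonempty (pb ψ₁ (pb φ₁ N) ≅ pb ψ₂ (pb φ₂ N)) := by
  obtain ⟨e⟩ := pb_comp_of_eq φ₁ ψ₁ (postComp φ₂ ψ₂) h N
  obtain ⟨e'⟩ := pb_comp φ₂ ψ₂ N
  exact ⟨e ≪≫ e'.symm⟩

theorem pb_id {T : Scheme.{u}} {t : T ⟶ Spec (CommRingCat.of R)} (ψ : SchemeHomOver t t)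
    (h : ψ.1 = 𝟙 T) (N : (pullback c t).Modules) : Nonempty (pb ψ N ≅ N) := by
  have h1 : ψ = ⟨𝟙 T, Category.id_comp t⟩ := Subtype.ext h
  subst h1
  exact ⟨(Scheme.Modules.pullbackCongr (baseChangeSnd_id c t)).app N ≪≫
    (Scheme.Modules.pullbackId _).app N⟩

theorem isInvertible_pb {T T' : Scheme.{u}} {t : T ⟶ Spec (CommRingCat.of R)}
    {t' : T' ⟶ Spec (CommRingCat.of R)} (ψ : SchemeHomOver t' t) {N : (pullback c t).Modules}
    (hN : Scheme.Modules.IsInvertible N) : Scheme.Modules.IsInvertible (pb ψ N) :=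
  hN.pullback _

/-- The pullback along the rigidifying section commutes with base change. -/
theorem rig_pb {T T' : Scheme.{u}} {t : T ⟶ Spec (CommRingCat.of R)}
    {t' : T' ⟶ Spec (CommRingCat.of R)} (ψ : SchemeHomOver t' t) (N : (pullback c t).Modules) :
    Nonempty ((Scheme.Modules.pullback (rigSection c t' ε)).obj (pb ψ N) ≅
      (Scheme.Modules.pullback ψ.1).obj ((Scheme.Modules.pullback (rigSection c t ε)).obj N)) :=
  ⟨(Scheme.Modules.pullbackComp _ _).app N ≪≫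
    (Scheme.Modules.pullbackCongr (rigSection_baseChangeSnd c ε ψ)).app N ≪≫
    ((Scheme.Modules.pullbackComp _ _).app N).symm⟩

/-- An isomorphic copy of a trivial sheaf pulls back to a trivial sheaf. -/
theorem pullback_trivial {X Y : Scheme.{u}} (f : Y ⟶ X) {M : X.Modules}
    (e : Nonempty (M ≅ SheafOfModules.unit X.ringCatSheaf)) :
    Nonempty ((Scheme.Modules.pullback f).obj M ≅ SheafOfModules.unit Y.ringCatSheaf) :=
  ⟨(Scheme.Modules.pullback f).mapIso e.some ≪≫ Scheme.Modules.pullbackUnitIso f⟩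

/-- A trivialization over an open `U` gives a trivialization of the pullback along any morphism
factoring through `U`. -/
theorem pullback_trivial_of_factor {X Y : Scheme.{u}} (M : X.Modules) (U : X.Opens)
    (e : Nonempty ((Scheme.Modules.pullback U.ι).obj M ≅ SheafOfModules.unit U.toScheme.ringCatSheaf))
    (j : Y ⟶ X) (j' : Y ⟶ U.toScheme) (hfac : j' ≫ U.ι = j) :
    Nonempty ((Scheme.Modules.pullback j).obj M ≅ SheafOfModules.unit Y.ringCatSheaf) := by
  obtain ⟨e'⟩ := pullback_trivial j' e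
  exact ⟨(Scheme.Modules.pullbackCongr hfac.symm).app M ≪≫
    ((Scheme.Modules.pullbackComp j' U.ι).app M).symm ≪≫ e'⟩

end Fermat.Agent.Jac.AbelJacobi81
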