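/-
Fermat/Agent/Jac/AbelJacobi81/RigidifyGlue.lean  (helper81) -- S25 programme, brick Q3a.

**Rigidify by shrinking** (Lemma G' of the Q3a plan).  Invertible sheaves `N a` on `C × V a`
(`V a` an open cover of the base `T`), pairwise isomorphic on the overlaps, NOT rigidified, glue to
a RIGIDIFIED line bundle `M₀` on `C × T` which is locally on `T` isomorphic to the `N a`
(globally `M₀ ≅ N ⊗ pr_T^* (ε^* N)⁻¹`; we never need this).

* `exists_open_rigidified` : around every point of the base an invertible sheaf on `C × V`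
  becomes rigidifiable;
* `exists_rigidified_of_local` : the gluing statement (uses `ClassesIsSheaf.glue`);
* `pullbackAlong_iso_of_local` : the pullback of `M₀` to a one-point scheme over `V a` is the
  pullback of `N a`.
-/
import Mathlib
import Fermat.Agent.Jac.AbelJacobi81.Pb

set_option autoImplicit false

universe u

open CategoryTheory CategoryTheory.Limits AlgebraicGeometry AlgebraicGeometry.RelPicard
  NeronModelInfra

noncomputable section

namespace Fermat.Agent.Jac.AbelJacobi81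

variable {k : Type u} [Field k] {C : Scheme.{u}} {c : C ⟶ Spec (CommRingCat.of k)}
  {ε : SchemeHomOver (𝟙 (Spec (CommRingCat.of k))) c}

/-- "Locally on `V`, the rigidified bundle `M₀` is isomorphic to `N`." -/
def LocallyIso {T : Scheme.{u}} {t : T ⟶ Spec (CommRingCat.of k)}
    (M₀ : RigidifiedLineBundle c ε t) (V : T.Opens) (N : (pullback c (V.ι ≫ t)).Modules) : Prop :=
  ∀ x : T, x ∈ V → ∃ (W : T.Opens) (hW : W ≤ V), x ∈ W ∧
    Nonempty ((restrictOpen M₀ W).L ≅ pb (openInclLE t hW) N)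

/-- Around every point of the base, an invertible sheaf on `C × V` becomes rigidifiable. -/
theorem exists_open_rigidified {T : Scheme.{u}} (t : T ⟶ Spec (CommRingCat.of k)) (V : T.Opens)
    (N : (pullback c (V.ι ≫ t)).Modules) (hN : Scheme.Modules.IsInvertible N) (x : T)
    (hx : x ∈ V) :
    ∃ (W : T.Opens) (hW : W ≤ V), x ∈ W ∧
      Nonempty ((Scheme.Modules.pullback (rigSection c (W.ι ≫ t) ε)).obj
          (pb (openInclLE t hW) N) ≅ SheafOfModules.unit W.toScheme.ringCatSheaf) := by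
  have hE : Scheme.Modules.IsInvertible
      ((Scheme.Modules.pullback (rigSection c (V.ι ≫ t) ε)).obj N) := hN.pullback _
  obtain ⟨U', hxU', e⟩ := hE.1 (⟨x, hx⟩ : V.toScheme)
  have hW : V.ι ''ᵁ U' ≤ V := by
    refine (Scheme.Hom.image_le_opensRange V.ι U').trans ?_
    rw [Scheme.Opens.opensRange_ι]
  refine ⟨V.ι ''ᵁ U', hW, ⟨⟨x, hx⟩, hxU', rfl⟩, ?_⟩
  obtain ⟨e1⟩ := rig_pb (ε := ε) (openInclLE t hW) N
  have hrange : Set.range (T.homOfLE hW) ⊆ Set.range U'.ι := by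
    have h1 : (T.homOfLE hW).opensRange = U' := by
      rw [Scheme.opensRange_homOfLE, Scheme.Hom.preimage_image_eq]
    rw [Scheme.Opens.range_ι]
    exact (congrArg (fun O : V.toScheme.Opens => (O : Set V.toScheme)) h1).le
  obtain ⟨e2⟩ := pullback_trivial_of_factor _ U' e (T.homOfLE hW)
    (IsOpenImmersion.lift U'.ι (T.homOfLE hW) hrange) (IsOpenImmersion.lift_fac _ _ _)
  exact ⟨e1 ≪≫ e2⟩

/-- **Rigidify by shrinking and glue.** -/
theorem exists_rigidified_of_local (hS : ClassesIsSheaf c ε) {T : Scheme.{u}}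
    (t : T ⟶ Spec (CommRingCat.of k)) {ι : Type u} (V : ι → T.Opens) (hV : ⨆ a, V a = ⊤)
    (N : ∀ a, (pullback c ((V a).ι ≫ t)).Modules)
    (hN : ∀ a, Scheme.Modules.IsInvertible (N a))
    (hcompat : ∀ a b, Nonempty
      (pb (openInclLE t (inf_le_left : V a ⊓ V b ≤ V a)) (N a) ≅
        pb (openInclLE t (inf_le_right : V a ⊓ V b ≤ V b)) (N b))) :
    ∃ M₀ : RigidifiedLineBundle c ε t, ∀ a, LocallyIso M₀ (V a) (N a) := by
  classical
  let J : Type u := Σ a : ι, {x : T // x ∈ V a}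
  have hex : ∀ j : J, ∃ (W : T.Opens) (hW : W ≤ V j.1), j.2.1 ∈ W ∧
      Nonempty ((Scheme.Modules.pullback (rigSection c (W.ι ≫ t) ε)).obj
          (pb (openInclLE t hW) (N j.1)) ≅ SheafOfModules.unit W.toScheme.ringCatSheaf) :=
    fun j => exists_open_rigidified t (V j.1) (N j.1) (hN j.1) j.2.1 j.2.2
  choose W hW hxW hr using hex
  let M : ∀ j : J, RigidifiedLineBundle c ε ((W j).ι ≫ t) := fun j =>
    { L := pb (openInclLE t (hW j)) (N j.1)
      isInvertible := isInvertible_pb _ (hN j.1)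
      rigidified := hr j }
  have hcover : ⨆ j, W j = ⊤ := by
    rw [eq_top_iff]
    intro x _
    have hx : x ∈ ⨆ a, V a := by rw [hV]; trivial
    obtain ⟨a, ha⟩ := TopologicalSpace.Opens.mem_iSup.1 hx
    exact TopologicalSpace.Opens.mem_iSup.2 ⟨⟨a, x, ha⟩, hxW ⟨a, x, ha⟩⟩
  have hM : ∀ i j, Nonempty
      (((M i).pullbackAlong (openInclLE t (inf_le_left : W i ⊓ W j ≤ W i))).L ≅
        ((M j).pullbackAlong (openInclLE t (inf_le_right : W i ⊓ W j ≤ W j))).L) := by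
    intro i j
    have h1 : W i ⊓ W j ≤ V i.1 ⊓ V j.1 := inf_le_inf (hW i) (hW j)
    obtain ⟨e1⟩ := pb_square (c := c) (openInclLE t (hW i))
      (openInclLE t (inf_le_left : W i ⊓ W j ≤ W i))
      (openInclLE t (inf_le_left : V i.1 ⊓ V j.1 ≤ V i.1)) (openInclLE t h1)
      (by simp [openInclLE]) (N i.1)
    obtain ⟨e2⟩ := pb_iso (openInclLE t h1) (hcompat i.1 j.1)
    obtain ⟨e3⟩ := pb_square (c := c) (openInclLE t (inf_le_right : V i.1 ⊓ V j.1 ≤ V j.1))
      (openInclLE t h1) (openInclLE t (hW j))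
      (openInclLE t (inf_le_right : W i ⊓ W j ≤ W j))
      (by simp [openInclLE]) (N j.1)
    exact ⟨e1 ≪≫ e2 ≪≫ e3⟩
  obtain ⟨M₀, hM₀⟩ := hS.glue t W hcover M hM
  refine ⟨M₀, fun a x hx => ?_⟩
  exact ⟨W ⟨a, x, hx⟩, hW ⟨a, x, hx⟩, hxW ⟨a, x, hx⟩, hM₀ ⟨a, x, hx⟩⟩

/-- The pullback of a bundle which is locally `N` to a one-point scheme over `V` is the pullback
of `N`. -/
theorem pullbackAlong_iso_of_local {T : Scheme.{u}} {t : T ⟶ Spec (CommRingCat.of k)}
    (M₀ : RigidifiedLineBundle c ε t) (V : T.Opens) (N : (pullback c (V.ι ≫ t)).Modules)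
    (hloc : LocallyIso M₀ V N) {S : Scheme.{u}} [Subsingleton S] (p : S)
    {s : S ⟶ Spec (CommRingCat.of k)} (x : SchemeHomOver s t) (y : SchemeHomOver s (V.ι ≫ t))
    (hxy : y.1 ≫ V.ι = x.1) :
    Nonempty ((M₀.pullbackAlong x).L ≅ pb y N) := by
  obtain ⟨W, hW, hpW, e⟩ := hloc (V.ι (y.1 p)) (y.1 p).2
  have hrange : Set.range x.1 ⊆ Set.range W.ι := by
    rw [Scheme.Opens.range_ι]
    rintro _ ⟨q, rfl⟩
    rw [Subsingleton.elim q p, ← hxy]
    exact hpW
  let z : S ⟶ W.toScheme := IsOpenImmersion.lift W.ι x.1 hrange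
  have hz : z ≫ W.ι = x.1 := IsOpenImmersion.lift_fac _ _ _
  let z' : SchemeHomOver s (W.ι ≫ t) := ⟨z, by rw [← Category.assoc, hz, x.2]⟩
  obtain ⟨e1⟩ := pb_comp_of_eq (c := c) (openIncl t W) z' x hz M₀.L
  obtain ⟨e2⟩ := pb_iso z' e
  have hzy : z ≫ T.homOfLE hW = y.1 := by
    rw [← cancel_mono V.ι, Category.assoc, Scheme.homOfLE_ι, hz, hxy]
  obtain ⟨e3⟩ := pb_comp_of_eq (c := c) (openInclLE t hW) z' y hzy N
  exact ⟨e1.symm ≪≫ e2 ≪≫ e3⟩

/-! ### Two charts -/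

/-- Transport of an isomorphism of restrictions along an equality of the smaller open. -/
theorem pb_openInclLE_congr {T : Scheme.{u}} (t : T ⟶ Spec (CommRingCat.of k))
    {W W' V V' : T.Opens} (hW : W = W') (hV : W ≤ V) (hV' : W ≤ V') (hV2 : W' ≤ V)
    (hV2' : W' ≤ V') (N : (pullback c (V.ι ≫ t)).Modules) (N' : (pullback c (V'.ι ≫ t)).Modules)
    (e : Nonempty (pb (openInclLE t hV) N ≅ pb (openInclLE t hV') N')) :
    Nonempty (pb (openInclLE t hV2) N ≅ pb (openInclLE t hV2') N') := by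
  subst hW
  exact e

/-- Two opens, as a family of opens. -/
def pairV {T : Scheme.{u}} (V0 V1 : T.Opens) : ULift.{u} Bool → T.Opens :=
  fun i => bif i.down then V1 else V0

theorem iSup_pairV {T : Scheme.{u}} (V0 V1 : T.Opens) (hcov : V0 ⊔ V1 = ⊤) :
    ⨆ i, pairV V0 V1 i = ⊤ := by
  rw [eq_top_iff, ← hcov]
  exact sup_le (le_iSup (pairV V0 V1) ⟨false⟩) (le_iSup (pairV V0 V1) ⟨true⟩)

/-- Two sheaves, as a family over the two opens. -/
def pairN {T : Scheme.{u}} (t : T ⟶ Spec (CommRingCat.of k)) (V0 V1 : T.Opens)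
    (N0 : (pullback c (V0.ι ≫ t)).Modules) (N1 : (pullback c (V1.ι ≫ t)).Modules) :
    ∀ i : ULift.{u} Bool, (pullback c ((pairV V0 V1 i).ι ≫ t)).Modules
  | ⟨false⟩ => N0
  | ⟨true⟩ => N1

/-- **Rigidify and glue over two charts.**  The base `T` is covered by two opens `V0`, `V1`
which come with morphisms `i0 : V0 ⟶ Z0`, `i1 : V1 ⟶ Z1`, `i01 : V0 ⊓ V1 ⟶ Z01` to auxiliary
schemes over `Spec k` (in the application: the spectra of the rings of functions), compatible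
with morphisms `r0 : Z01 ⟶ Z0`, `r1 : Z01 ⟶ Z1`.  Invertible sheaves `N0`, `N1` on `C × Z0`,
`C × Z1` which become isomorphic on `C × Z01` give a rigidified line bundle on `C × T`, locally
isomorphic to the pullbacks of `N0` and `N1`. -/
theorem exists_rigidified_of_twoCharts (hS : ClassesIsSheaf c ε) {T : Scheme.{u}}
    (t : T ⟶ Spec (CommRingCat.of k)) (V0 V1 : T.Opens) (hcov : V0 ⊔ V1 = ⊤)
    {Z0 Z1 Z01 : Scheme.{u}} {z0 : Z0 ⟶ Spec (CommRingCat.of k)}
    {z1 : Z1 ⟶ Spec (CommRingCat.of k)} {z01 : Z01 ⟶ Spec (CommRingCat.of k)}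
    (i0 : SchemeHomOver (V0.ι ≫ t) z0) (i1 : SchemeHomOver (V1.ι ≫ t) z1)
    (i01 : SchemeHomOver ((V0 ⊓ V1).ι ≫ t) z01)
    (r0 : SchemeHomOver z01 z0) (r1 : SchemeHomOver z01 z1)
    (h0 : T.homOfLE (inf_le_left : V0 ⊓ V1 ≤ V0) ≫ i0.1 = i01.1 ≫ r0.1)
    (h1 : T.homOfLE (inf_le_right : V0 ⊓ V1 ≤ V1) ≫ i1.1 = i01.1 ≫ r1.1)
    (N0 : (pullback c z0).Modules) (hN0 : Scheme.Modules.IsInvertible N0)
    (N1 : (pullback c z1).Modules) (hN1 : Scheme.Modules.IsInvertible N1)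
    (h01 : Nonempty (pb r0 N0 ≅ pb r1 N1)) :
    ∃ M₀ : RigidifiedLineBundle c ε t,
      LocallyIso M₀ V0 (pb i0 N0) ∧ LocallyIso M₀ V1 (pb i1 N1) := by
  -- the compatibility on the overlap
  have hc : Nonempty
      (pb (openInclLE t (inf_le_left : V0 ⊓ V1 ≤ V0)) (pb i0 N0) ≅
        pb (openInclLE t (inf_le_right : V0 ⊓ V1 ≤ V1)) (pb i1 N1)) := by
    obtain ⟨e1⟩ := pb_square (c := c) i0 (openInclLE t (inf_le_left : V0 ⊓ V1 ≤ V0)) r0 i01 h0 N0
    obtain ⟨e2⟩ := pb_iso i01 h01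
    obtain ⟨e3⟩ := pb_square (c := c) i1 (openInclLE t (inf_le_right : V0 ⊓ V1 ≤ V1)) r1 i01 h1 N1
    exact ⟨e1 ≪≫ e2 ≪≫ e3.symm⟩
  obtain ⟨M₀, hM₀⟩ := exists_rigidified_of_local hS t (pairV V0 V1) (iSup_pairV V0 V1 hcov)
    (pairN t V0 V1 (pb i0 N0) (pb i1 N1))
    (by
      rintro ⟨i⟩
      cases i
      · exact isInvertible_pb _ hN0
      · exact isInvertible_pb _ hN1)
    (by
      rintro ⟨i⟩ ⟨j⟩
      cases i <;> cases j
      · exact pb_congr rfl _
      · exact hc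
      · obtain ⟨e⟩ := hc
        exact pb_openInclLE_congr t (inf_comm V0 V1) inf_le_right inf_le_left inf_le_left
          inf_le_right (pb i1 N1) (pb i0 N0) ⟨e.symm⟩
      · exact pb_congr rfl _)
  exact ⟨M₀, hM₀ ⟨false⟩, hM₀ ⟨true⟩⟩

/-- The pullback of a bundle which is locally (on `V`) the pullback of `N` along `i : V ⟶ Z`,
to a one-point scheme mapping to `V` through `Z`. -/
theorem pullbackAlong_iso_of_chart {T : Scheme.{u}} {t : T ⟶ Spec (CommRingCat.of k)}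
    (M₀ : RigidifiedLineBundle c ε t) (V : T.Opens) {Z : Scheme.{u}}
    {z : Z ⟶ Spec (CommRingCat.of k)} (i : SchemeHomOver (V.ι ≫ t) z) (j : Z ⟶ V.toScheme)
    (hji : j ≫ i.1 = 𝟙 Z) (N : (pullback c z).Modules) (hloc : LocallyIso M₀ V (pb i N))
    {S : Scheme.{u}} [Subsingleton S] (p : S) {s : S ⟶ Spec (CommRingCat.of k)}
    (x : SchemeHomOver s t) (y : SchemeHomOver s z) (hxy : y.1 ≫ j ≫ V.ι = x.1) :
    Nonempty ((M₀.pullbackAlong x).L ≅ pb y N) := by
  have hy' : (y.1 ≫ j) ≫ V.ι ≫ t = s := by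
    have h1 : j ≫ V.ι ≫ t = z := by
      rw [← i.2, ← Category.assoc j, hji, Category.id_comp]
    rw [Category.assoc, h1, y.2]
  obtain ⟨e1⟩ := pullbackAlong_iso_of_local M₀ V _ hloc p x
    (⟨y.1 ≫ j, hy'⟩ : SchemeHomOver s (V.ι ≫ t)) (by rw [Category.assoc, hxy])
  obtain ⟨e2⟩ := pb_comp_of_eq (c := c) i (⟨y.1 ≫ j, hy'⟩ : SchemeHomOver s (V.ι ≫ t)) y
    (by rw [Category.assoc, hji, Category.comp_id]) N
  exact ⟨e1 ≪≫ e2⟩

end Fermat.Agent.Jac.AbelJacobi81
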