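/-
Fermat/Agent/Jac/AbelJacobi81/OnePoint.lean  (helper81) -- S25 programme, brick Q3a (scheme side).

Gluing a rigidified line bundle on `C ×ₖ C` (base = the second factor `T = C`) from
(unrigidified) invertible sheaves `N0`, `N1` on `C_{B0}`, `C_{B1}` (`B_i = Γ(C, U_i)` the chart
rings of `cc : CurveCharts c ε`, used as BASE rings) which agree on `C_{B01}`.

* `fromSpec0 cc : Spec B0 ⟶ C`, `isoSpec0 cc : U0 ≅ Spec B0`, ... : the charts, typed with the
  rings `cc.B0`, `cc.B1`, `cc.B01`; `fromSpec0_str`, ... : their structure morphisms;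
* `chartHom0/1 : SchemeHomOver (specStr B_i) c`, `isoOver0/1/01`, `res0Alg`, `res1Alg`;
* `exists_bundle_of_chartSheaves` : the glued bundle `M₀ : RigidifiedLineBundle c ε c`, locally
  (on the base) isomorphic to `N0`, `N1`;
* `pullbackAlong_chart0/1` : the pullback of `M₀` to a one-point scheme mapping to the chart `U_i`
  is the pullback of `N_i`.
-/
import Mathlib
import Fermat.Agent.Jac.AbelJacobi81.RigidifyGlue
import Fermat.Agent.Jac.AffineDict87.Setup
import Fermat.Agent.Jac.BridgeCharts33Nat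
import Fermat.Agent.Jac.ChartFPL36

set_option autoImplicit false

universe u

open CategoryTheory CategoryTheory.Limits AlgebraicGeometry AlgebraicGeometry.RelPicard
  NeronModelInfra TopologicalSpace Opposite

noncomputable section

namespace Fermat.Agent.Jac.AbelJacobi81

open TwoCoverGammaSetting BridgeCharts33

variable {k : Type u} [Field k] {C : Scheme.{u}} {c : C ⟶ Spec (CommRingCat.of k)}
  {ε : SchemeHomOver (𝟙 (Spec (CommRingCat.of k))) c}

/-- The structure morphism of an affine open of a `k`-scheme. -/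
theorem fromSpec_comp_str {U : C.Opens} (hU : IsAffineOpen U) :
    hU.fromSpec ≫ c = Spec.map (CommRingCat.ofHom (sectionsRingHom c U)) := by
  have h := IsAffineOpen.SpecMap_appLE_fromSpec c (isAffineOpen_top (Spec (CommRingCat.of k))) hU
    (le_top : U ≤ c ⁻¹ᵁ ⊤)
  rw [← h, IsAffineOpen.fromSpec_top, Scheme.isoSpec_Spec_inv, ← Spec.map_comp]
  rfl

/-- Compatibility of `isoSpec` with restriction to a smaller affine open. -/
theorem homOfLE_isoSpec_hom {X : Scheme.{u}} {V W : X.Opens} (hV : IsAffineOpen V)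
    (hW : IsAffineOpen W) (hWV : W ≤ V) :
    X.homOfLE hWV ≫ hV.isoSpec.hom =
      hW.isoSpec.hom ≫ Spec.map (X.presheaf.map (homOfLE hWV).op) := by
  rw [← cancel_mono hV.fromSpec, Category.assoc, Category.assoc,
    IsAffineOpen.isoSpec_hom_fromSpec, Scheme.homOfLE_ι, hV.map_fromSpec hW,
    IsAffineOpen.isoSpec_hom_fromSpec]

variable (cc : CurveCharts c ε)

theorem affine01 : IsAffineOpen (cc.U0 ⊓ cc.U1) := by
  rw [cc.inter0]
  exact cc.affine0.basicOpen cc.t

/-! ### The charts, typed with the chart rings -/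

/-- The chart `Spec B0 ⟶ C`. -/
def fromSpec0 : Spec (CommRingCat.of cc.B0) ⟶ C := cc.affine0.fromSpec
/-- The chart `Spec B1 ⟶ C`. -/
def fromSpec1 : Spec (CommRingCat.of cc.B1) ⟶ C := cc.affine1.fromSpec
/-- The chart `Spec B01 ⟶ C`. -/
def fromSpec01 : Spec (CommRingCat.of cc.B01) ⟶ C := (affine01 cc).fromSpec

instance isOpenImmersion_fromSpec0 : IsOpenImmersion (fromSpec0 cc) :=
  inferInstanceAs (IsOpenImmersion cc.affine0.fromSpec)
instance isOpenImmersion_fromSpec1 : IsOpenImmersion (fromSpec1 cc) :=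
  inferInstanceAs (IsOpenImmersion cc.affine1.fromSpec)
instance isOpenImmersion_fromSpec01 : IsOpenImmersion (fromSpec01 cc) :=
  inferInstanceAs (IsOpenImmersion (affine01 cc).fromSpec)

theorem range_fromSpec0 : Set.range (fromSpec0 cc) = (cc.U0 : Set C) := cc.affine0.range_fromSpec
theorem range_fromSpec1 : Set.range (fromSpec1 cc) = (cc.U1 : Set C) := cc.affine1.range_fromSpec

/-- `U0 ≅ Spec B0`. -/
def isoSpec0 : cc.U0.toScheme ≅ Spec (CommRingCat.of cc.B0) := cc.affine0.isoSpec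
/-- `U1 ≅ Spec B1`. -/
def isoSpec1 : cc.U1.toScheme ≅ Spec (CommRingCat.of cc.B1) := cc.affine1.isoSpec
/-- `U0 ⊓ U1 ≅ Spec B01`. -/
def isoSpec01 : (cc.U0 ⊓ cc.U1).toScheme ≅ Spec (CommRingCat.of cc.B01) := (affine01 cc).isoSpec

@[reassoc]
theorem isoSpec0_hom_fromSpec0 : (isoSpec0 cc).hom ≫ fromSpec0 cc = cc.U0.ι :=
  cc.affine0.isoSpec_hom_fromSpec
@[reassoc]
theorem isoSpec1_hom_fromSpec1 : (isoSpec1 cc).hom ≫ fromSpec1 cc = cc.U1.ι :=
  cc.affine1.isoSpec_hom_fromSpec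
@[reassoc]
theorem isoSpec01_hom_fromSpec01 : (isoSpec01 cc).hom ≫ fromSpec01 cc = (cc.U0 ⊓ cc.U1).ι :=
  (affine01 cc).isoSpec_hom_fromSpec

@[reassoc]
theorem isoSpec0_inv_ι : (isoSpec0 cc).inv ≫ cc.U0.ι = fromSpec0 cc := cc.affine0.isoSpec_inv_ι
@[reassoc]
theorem isoSpec1_inv_ι : (isoSpec1 cc).inv ≫ cc.U1.ι = fromSpec1 cc := cc.affine1.isoSpec_inv_ι

theorem fromSpec0_str : fromSpec0 cc ≫ c = specStr cc.B0 := by
  have h : cc.affine0.fromSpec ≫ c =
      Spec.map (CommRingCat.ofHom (sectionsRingHom c cc.U0)) := fromSpec_comp_str cc.affine0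
  rw [← ChartFPL36.str0_eq] at h
  exact h

theorem fromSpec1_str : fromSpec1 cc ≫ c = specStr cc.B1 := by
  have h : cc.affine1.fromSpec ≫ c =
      Spec.map (CommRingCat.ofHom (sectionsRingHom c cc.U1)) := fromSpec_comp_str cc.affine1
  rw [← ChartFPL36.str1_eq] at h
  exact h

theorem str01_eq : cc.cover0.str01 = sectionsRingHom c (cc.U0 ⊓ cc.U1) := by
  ext a
  exact map_secHom c (le_top : cc.U0 ⊓ cc.U1 ≤ ⊤) a

theorem fromSpec01_str : fromSpec01 cc ≫ c = specStr cc.B01 := by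
  have h : (affine01 cc).fromSpec ≫ c =
      Spec.map (CommRingCat.ofHom (sectionsRingHom c (cc.U0 ⊓ cc.U1))) :=
    fromSpec_comp_str (affine01 cc)
  rw [← str01_eq] at h
  exact h

/-- The first chart of the curve, as a morphism over `Spec k`. -/
def chartHom0 : SchemeHomOver (specStr cc.B0) c := ⟨fromSpec0 cc, fromSpec0_str cc⟩

/-- The second chart of the curve, as a morphism over `Spec k`. -/
def chartHom1 : SchemeHomOver (specStr cc.B1) c := ⟨fromSpec1 cc, fromSpec1_str cc⟩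

/-- The identification `U0 ≅ Spec B0`, as a morphism over `Spec k`. -/
def isoOver0 : SchemeHomOver (cc.U0.ι ≫ c) (specStr cc.B0) :=
  ⟨(isoSpec0 cc).hom, by rw [← fromSpec0_str, isoSpec0_hom_fromSpec0_assoc]⟩

/-- The identification `U1 ≅ Spec B1`, as a morphism over `Spec k`. -/
def isoOver1 : SchemeHomOver (cc.U1.ι ≫ c) (specStr cc.B1) :=
  ⟨(isoSpec1 cc).hom, by rw [← fromSpec1_str, isoSpec1_hom_fromSpec1_assoc]⟩

/-- The identification `U0 ⊓ U1 ≅ Spec B01`, as a morphism over `Spec k`. -/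
def isoOver01 : SchemeHomOver ((cc.U0 ⊓ cc.U1).ι ≫ c) (specStr cc.B01) :=
  ⟨(isoSpec01 cc).hom, by rw [← fromSpec01_str, isoSpec01_hom_fromSpec01_assoc]⟩

/-- Restriction `B0 → B01` as a `k`-algebra homomorphism. -/
abbrev res0Alg : cc.B0 →ₐ[k] cc.B01 := IsScalarTower.toAlgHom k cc.B0 cc.B01

/-- Restriction `B1 → B01` as a `k`-algebra homomorphism. -/
abbrev res1Alg : cc.B1 →ₐ[k] cc.B01 := IsScalarTower.toAlgHom k cc.B1 cc.B01

theorem homOfLE_isoSpec0 : C.homOfLE (inf_le_left : cc.U0 ⊓ cc.U1 ≤ cc.U0) ≫ (isoOver0 cc).1 =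
    (isoOver01 cc).1 ≫ (specOver (res0Alg cc)).1 :=
  homOfLE_isoSpec_hom cc.affine0 (affine01 cc) inf_le_left

theorem homOfLE_isoSpec1 : C.homOfLE (inf_le_right : cc.U0 ⊓ cc.U1 ≤ cc.U1) ≫ (isoOver1 cc).1 =
    (isoOver01 cc).1 ≫ (specOver (res1Alg cc)).1 :=
  homOfLE_isoSpec_hom cc.affine1 (affine01 cc) inf_le_right

/-- **Gluing the one-point bundle from the two charts.** -/
theorem exists_bundle_of_chartSheaves (hS : ClassesIsSheaf c ε)
    (N0 : (XA c cc.B0).Modules) (hN0 : Scheme.Modules.IsInvertible N0)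
    (N1 : (XA c cc.B1).Modules) (hN1 : Scheme.Modules.IsInvertible N1)
    (h01 : Nonempty (pb (specOver (res0Alg cc)) N0 ≅ pb (specOver (res1Alg cc)) N1)) :
    ∃ M₀ : RigidifiedLineBundle c ε c,
      LocallyIso M₀ cc.U0 (pb (isoOver0 cc) N0) ∧ LocallyIso M₀ cc.U1 (pb (isoOver1 cc) N1) :=
  exists_rigidified_of_twoCharts hS c cc.U0 cc.U1 cc.cover (isoOver0 cc) (isoOver1 cc)
    (isoOver01 cc) (specOver (res0Alg cc)) (specOver (res1Alg cc)) (homOfLE_isoSpec0 cc)
    (homOfLE_isoSpec1 cc) N0 hN0 N1 hN1 h01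

/-- The pullback of the glued bundle to a one-point scheme mapping into the first chart. -/
theorem pullbackAlong_chart0 (M₀ : RigidifiedLineBundle c ε c) (N0 : (XA c cc.B0).Modules)
    (hloc : LocallyIso M₀ cc.U0 (pb (isoOver0 cc) N0)) {S : Scheme.{u}} [Subsingleton S] (p : S)
    {s : S ⟶ Spec (CommRingCat.of k)} (x : SchemeHomOver s c)
    (y : SchemeHomOver s (specStr cc.B0)) (hxy : y.1 ≫ fromSpec0 cc = x.1) :
    Nonempty ((M₀.pullbackAlong x).L ≅ pb y N0) :=
  pullbackAlong_iso_of_chart M₀ cc.U0 (isoOver0 cc) (isoSpec0 cc).inv (isoSpec0 cc).inv_hom_id N0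
    hloc p x y (by rw [isoSpec0_inv_ι, hxy])

/-- The pullback of the glued bundle to a one-point scheme mapping into the second chart. -/
theorem pullbackAlong_chart1 (M₀ : RigidifiedLineBundle c ε c) (N1 : (XA c cc.B1).Modules)
    (hloc : LocallyIso M₀ cc.U1 (pb (isoOver1 cc) N1)) {S : Scheme.{u}} [Subsingleton S] (p : S)
    {s : S ⟶ Spec (CommRingCat.of k)} (x : SchemeHomOver s c)
    (y : SchemeHomOver s (specStr cc.B1)) (hxy : y.1 ≫ fromSpec1 cc = x.1) :
    Nonempty ((M₀.pullbackAlong x).L ≅ pb y N1) :=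
  pullbackAlong_iso_of_chart M₀ cc.U1 (isoOver1 cc) (isoSpec1 cc).inv (isoSpec1 cc).inv_hom_id N1
    hloc p x y (by rw [isoSpec1_inv_ι, hxy])

end Fermat.Agent.Jac.AbelJacobi81
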