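/-
Fermat/Agent/Jac/AbelJacobi81/OnePointDict.lean  (helper81) -- S25 programme, brick Q3a.

The one-point (Abel-Jacobi) family `F1 : ClassFamily (ChiDict36.chiCut D hc0) c` from two-chart
LINES `L0` over the base ring `B0`, `L1` over the base ring `B1` which agree over `B01`
(all through the affine dictionary `D`), together with the description of its values at
field-valued points in terms of lifts of `L0`, `L1`.
-/
import Mathlib
import Fermat.Agent.Jac.AbelJacobi81.OnePoint
import Fermat.Agent.Jac.AbelJacobi81.OfClass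
import Fermat.Agent.Jac.ChiDict36

set_option autoImplicit false

universe u

open CategoryTheory CategoryTheory.Limits AlgebraicGeometry AlgebraicGeometry.RelPicard
  NeronModelInfra GoodReductionJacobian TopologicalSpace Opposite TensorProduct

noncomputable section

namespace Fermat.Agent.Jac.AbelJacobi81

open scoped Fermat.Agent.Jac.BaseChange75
open TwoCoverGammaSetting BridgeCharts33 JSmooth85Alg ChiDict36 CutDeg36
open PointsBridge79 PointsBridge79Shell AbelJacobi73

variable {k : Type u} [Field k] {C : Scheme.{u}} {c : C ⟶ Spec (CommRingCat.of k)}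
  {ε : SchemeHomOver (𝟙 (Spec (CommRingCat.of k))) c} {cc : CurveCharts c ε}
  (D : AffineDictionary cc) (hc0 : cc.chart0.FiniteProjOverLine)

/-- Membership in the Euler-characteristic cut of a bundle which is locally isomorphic to
(unrigidified) invertible sheaves of the right Euler characteristic. -/
theorem chiCut_of_locallyIso {T : Scheme.{u}} (t : T ⟶ Spec (CommRingCat.of k))
    (M₀ : RigidifiedLineBundle c ε t) {ι : Type u} (V : ι → T.Opens) (hV : ⨆ a, V a = ⊤)
    (N : ∀ a, (pullback c ((V a).ι ≫ t)).Modules)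
    (hN : ∀ a, Scheme.Modules.IsInvertible (N a))
    (hloc : ∀ a, LocallyIso M₀ (V a) (N a))
    (hχ : ∀ a (y : (V a).toScheme), (chiTheory D hc0).chi ((V a).ι ≫ t) (N a) y = chi0 cc) :
    (chiCut D hc0).P t M₀ := by
  classical
  let J : Type u := Σ a : ι, {x : T // x ∈ V a}
  have hex : ∀ j : J, ∃ (W : T.Opens) (hW : W ≤ V j.1), j.2.1 ∈ W ∧
      Nonempty ((restrictOpen M₀ W).L ≅ pb (openInclLE t hW) (N j.1)) :=
    fun j => hloc j.1 j.2.1 j.2.2
  choose W hW hxW he using hex
  have hcover : ⨆ j, W j = ⊤ := by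
    rw [eq_top_iff]
    intro x _
    have hx : x ∈ ⨆ a, V a := by rw [hV]; trivial
    obtain ⟨a, ha⟩ := TopologicalSpace.Opens.mem_iSup.1 hx
    exact TopologicalSpace.Opens.mem_iSup.2 ⟨⟨a, x, ha⟩, hxW ⟨a, x, ha⟩⟩
  refine chiCut_of_cover D hc0 t M₀ W hcover (fun j => pb (openInclLE t (hW j)) (N j.1)) he ?_
  intro j y
  rw [chiTheory_chi_pullback D hc0 (openInclLE t (hW j)) (N j.1) (hN j.1) y]
  exact hχ j.1 _

/-- Two-chart version of `chiCut_of_locallyIso`. -/
theorem chiCut_of_locallyIso_two {T : Scheme.{u}} (t : T ⟶ Spec (CommRingCat.of k))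
    (M₀ : RigidifiedLineBundle c ε t) (V0 V1 : T.Opens) (hcov : V0 ⊔ V1 = ⊤)
    (N0 : (pullback c (V0.ι ≫ t)).Modules) (N1 : (pullback c (V1.ι ≫ t)).Modules)
    (hN0 : Scheme.Modules.IsInvertible N0) (hN1 : Scheme.Modules.IsInvertible N1)
    (hloc0 : LocallyIso M₀ V0 N0) (hloc1 : LocallyIso M₀ V1 N1)
    (hχ0 : ∀ y : V0.toScheme, (chiTheory D hc0).chi (V0.ι ≫ t) N0 y = chi0 cc)
    (hχ1 : ∀ y : V1.toScheme, (chiTheory D hc0).chi (V1.ι ≫ t) N1 y = chi0 cc) :
    (chiCut D hc0).P t M₀ := by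
  refine chiCut_of_locallyIso D hc0 t M₀ (pairV V0 V1) (iSup_pairV V0 V1 hcov)
    (pairN t V0 V1 N0 N1) ?_ ?_ ?_
  · rintro ⟨i⟩
    cases i
    · exact hN0
    · exact hN1
  · rintro ⟨i⟩
    cases i
    · exact hloc0
    · exact hloc1
  · rintro ⟨i⟩
    cases i
    · exact hχ0
    · exact hχ1

/-- **Q3a: the one-point family from the two chart lines.**  `L0` is a line over the tensor
rings with base ring `B0` (the line of `O(P0 - Δ)` restricted to `C × U0`), `L1` the same over
`B1`; their chartwise base changes to `B01` are isomorphic.  Then there is a family of classes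
`F1` on the curve whose value at a field-valued point `x : Spec K ⟶ C` lying in the chart `U_i`
(given by `B_i → K`) corresponds, through the dictionary, to any lift `L'` of `L_i` to `K`. -/
theorem exists_onePointFamily (hS : ClassesIsSheaf c ε)
    (L0 : cc.QCA cc.B0) (hL0 : L0.IsLine) (hχ0 : ∀ p, L0.chi p = chi0 cc)
    (L1 : cc.QCA cc.B1) (hL1 : L1.IsLine) (hχ1 : ∀ p, L1.chi p = chi0 cc)
    (L01 L01' : cc.QCA cc.B01) (l0 : LiftData L0 L01) (l1 : LiftData L1 L01')
    (e01 : Nonempty (QC2.Iso L01 L01')) :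
    ∃ F1 : ClassFamily (chiCut D hc0) c,
      (∀ (K : Type u) [Field K] [Algebra k K] [Algebra cc.B0 K] [IsScalarTower k cc.B0 K]
        (x : SchemeHomOver (specStr (k := k) K) c)
        (_ : (specOver (IsScalarTower.toAlgHom k cc.B0 K)).1 ≫ fromSpec0 cc = x.1)
        (L' : cc.QCA K) (_ : LiftData L0 L'),
        ∃ (N : RigidifiedLineBundle c ε (specStr (k := k) K))
          (hN : (chiCut D hc0).P (specStr (k := k) K) N), D.Corr K N.L L' ∧
            clsAt F1 (CommRingCat.of K) x.1 (specStr (k := k) K) x.2 =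
              PClass.mk (chiCut D hc0) (specStr (k := k) K) N hN) ∧
      (∀ (K : Type u) [Field K] [Algebra k K] [Algebra cc.B1 K] [IsScalarTower k cc.B1 K]
        (x : SchemeHomOver (specStr (k := k) K) c)
        (_ : (specOver (IsScalarTower.toAlgHom k cc.B1 K)).1 ≫ fromSpec1 cc = x.1)
        (L' : cc.QCA K) (_ : LiftData L1 L'),
        ∃ (N : RigidifiedLineBundle c ε (specStr (k := k) K))
          (hN : (chiCut D hc0).P (specStr (k := k) K) N), D.Corr K N.L L' ∧
            clsAt F1 (CommRingCat.of K) x.1 (specStr (k := k) K) x.2 =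
              PClass.mk (chiCut D hc0) (specStr (k := k) K) N hN) := by
  obtain ⟨N0, hC0⟩ := D.exists_sheaf L0 hL0
  obtain ⟨N1, hC1⟩ := D.exists_sheaf L1 hL1
  have hN0 := D.isInvertible hC0
  have hN1 := D.isInvertible hC1
  -- agreement over `B01`
  have hC01 := D.baseChange hC0 l0
  have hC01' := D.baseChange hC1 l1
  have h01 : Nonempty (pb (specOver (res0Alg cc)) N0 ≅ pb (specOver (res1Alg cc)) N1) :=
    (D.iso_iff hC01 hC01').2 e01
  obtain ⟨M₀, hloc0, hloc1⟩ := exists_bundle_of_chartSheaves cc hS N0 hN0 N1 hN1 h01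
  -- membership in the cut
  have hM₀ : (chiCut D hc0).P c M₀ := by
    refine chiCut_of_locallyIso_two D hc0 c M₀ cc.U0 cc.U1 cc.cover _ _
      (isInvertible_pb _ hN0) (isInvertible_pb _ hN1) hloc0 hloc1 ?_ ?_
    · intro y
      rw [chiTheory_chi_pullback D hc0 (isoOver0 cc) N0 hN0 y]
      exact (chiTheory_chi_affine D hc0 cc.B0 N0 hC0 _).trans (hχ0 _)
    · intro y
      rw [chiTheory_chi_pullback D hc0 (isoOver1 cc) N1 hN1 y]
      exact (chiTheory_chi_affine D hc0 cc.B1 N1 hC1 _).trans (hχ1 _)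
  refine ⟨ofBundle M₀ hM₀, ?_, ?_⟩
  · intro K _ _ _ _ x hx L' l
    refine ⟨M₀.pullbackAlong x, (chiCut D hc0).pullback_mem _ _ _ _ hM₀, ?_, ?_⟩
    · obtain ⟨e⟩ := pullbackAlong_chart0 cc M₀ N0 hloc0
        (default : Spec (CommRingCat.of K)) x
        (specOver (IsScalarTower.toAlgHom k cc.B0 K)) hx
      exact D.congr_sheaf (D.baseChange hC0 l) e.symm
    · exact clsAt_ofBundle M₀ hM₀ (CommRingCat.of K) x.1 (specStr (k := k) K) x.2
  · intro K _ _ _ _ x hx L' l
    refine ⟨M₀.pullbackAlong x, (chiCut D hc0).pullback_mem _ _ _ _ hM₀, ?_, ?_⟩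
    · obtain ⟨e⟩ := pullbackAlong_chart1 cc M₀ N1 hloc1
        (default : Spec (CommRingCat.of K)) x
        (specOver (IsScalarTower.toAlgHom k cc.B1 K)) hx
      exact D.congr_sheaf (D.baseChange hC1 l) e.symm
    · exact clsAt_ofBundle M₀ hM₀ (CommRingCat.of K) x.1 (specStr (k := k) K) x.2

end Fermat.Agent.Jac.AbelJacobi81
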