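/-
Fermat/Agent/Jac/AbelJacobi81/Final.lean  (helper81) -- S25 programme, brick Q3a: FINAL statement.

From two-chart LINES `L0` over the base ring `B0` and `L1` over the base ring `B1` (with Euler
characteristic `chi0`) whose chartwise base changes to `B01` are isomorphic:

* `exists_onePointBundle` : ONE rigidified bundle `M₀` on `C ×ₖ C` over the base `T = C`, in the
  cut, locally (on the base) isomorphic to the dictionary sheaves of `L0`, `L1`;
* `exists_onePointFamily_eval` : the one-point family `F1 : ClassFamily (chiCut D hc0) c` together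
  with its evaluation at the `k`-points of the two charts, in the form consumed by
  `BridgeK84.isProductOfPoints_of_eval` (statement (E) of the Q3 plan):
  `lineClassPt D _ Q (clsAt F1 (.of k) x.1 (𝟙 _) x.2) = LinePic.mk (cc.chartA k) L' hL'` for every
  line `L'` over `k` which is a chartwise base change of `L_a` along the evaluation `B_a → k` at
  `x`.
-/
import Mathlib
import Fermat.Agent.Jac.AbelJacobi81.OnePointDict
import Fermat.Agent.Jac.JGroup85EvalPt

set_option autoImplicit false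
set_option linter.style.haveILetI false

universe u

open CategoryTheory CategoryTheory.Limits AlgebraicGeometry AlgebraicGeometry.RelPicard
  NeronModelInfra GoodReductionJacobian TopologicalSpace Opposite TensorProduct

noncomputable section

namespace Fermat.Agent.Jac.AbelJacobi81

open scoped Fermat.Agent.Jac.BaseChange75
open TwoCoverGammaSetting BridgeCharts33 JSmooth85Alg ChiDict36 CutDeg36
open PointsBridge79 PointsBridge79Shell AbelJacobi73 JGroup85Law JGroup85Api JGroup85Pic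

variable {k : Type u} [Field k] {C : Scheme.{u}} {c : C ⟶ Spec (CommRingCat.of k)}
  {ε : SchemeHomOver (𝟙 (Spec (CommRingCat.of k))) c} {cc : CurveCharts c ε}
  (D : AffineDictionary cc) (hc0 : cc.chart0.FiniteProjOverLine)

/-- **The one-point bundle.** -/
theorem exists_onePointBundle (hS : ClassesIsSheaf c ε)
    (L0 : cc.QCA cc.B0) (hL0 : L0.IsLine) (hχ0 : ∀ p, L0.chi p = chi0 cc)
    (L1 : cc.QCA cc.B1) (hL1 : L1.IsLine) (hχ1 : ∀ p, L1.chi p = chi0 cc)
    (L01 L01' : cc.QCA cc.B01) (l0 : LiftData L0 L01) (l1 : LiftData L1 L01')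
    (e01 : Nonempty (QC2.Iso L01 L01')) :
    ∃ (M₀ : RigidifiedLineBundle c ε c) (N0 : (XA c cc.B0).Modules)
      (N1 : (XA c cc.B1).Modules),
      (chiCut D hc0).P c M₀ ∧ D.Corr cc.B0 N0 L0 ∧ D.Corr cc.B1 N1 L1 ∧
        LocallyIso M₀ cc.U0 (pb (isoOver0 cc) N0) ∧ LocallyIso M₀ cc.U1 (pb (isoOver1 cc) N1) := by
  obtain ⟨N0, hC0⟩ := D.exists_sheaf L0 hL0
  obtain ⟨N1, hC1⟩ := D.exists_sheaf L1 hL1
  have hN0 := D.isInvertible hC0
  have hN1 := D.isInvertible hC1
  have hC01 := D.baseChange hC0 l0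
  have hC01' := D.baseChange hC1 l1
  have h01 : Nonempty (pb (specOver (res0Alg cc)) N0 ≅ pb (specOver (res1Alg cc)) N1) :=
    (D.iso_iff hC01 hC01').2 e01
  obtain ⟨M₀, hloc0, hloc1⟩ := exists_bundle_of_chartSheaves cc hS N0 hN0 N1 hN1 h01
  refine ⟨M₀, N0, N1, ?_, hC0, hC1, hloc0, hloc1⟩
  refine chiCut_of_locallyIso_two D hc0 c M₀ cc.U0 cc.U1 cc.cover _ _
    (isInvertible_pb _ hN0) (isInvertible_pb _ hN1) hloc0 hloc1 ?_ ?_
  · intro y
    rw [chiTheory_chi_pullback D hc0 (isoOver0 cc) N0 hN0 y]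
    exact (chiTheory_chi_affine D hc0 cc.B0 N0 hC0 _).trans (hχ0 _)
  · intro y
    rw [chiTheory_chi_pullback D hc0 (isoOver1 cc) N1 hN1 y]
    exact (chiTheory_chi_affine D hc0 cc.B1 N1 hC1 _).trans (hχ1 _)

/-- **Q3a, final form: the one-point family and its evaluation at `k`-points** (statement (E)).
For `L0 := pointLine0 .. B0 id`, `L1 := pointLine1 .. B1 id` (helper73) and
`L' := pointLine_a .. k (evalAlg_a cc x hx)` this is the input `heval` of
`BridgeK84.isProductOfPoints_of_eval`. -/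
theorem exists_onePointFamily_eval (hS : ClassesIsSheaf c ε)
    (Q : CutAlg cc D (chiCut D hc0))
    (L0 : cc.QCA cc.B0) (hL0 : L0.IsLine) (hχ0 : ∀ p, L0.chi p = chi0 cc)
    (L1 : cc.QCA cc.B1) (hL1 : L1.IsLine) (hχ1 : ∀ p, L1.chi p = chi0 cc)
    (L01 L01' : cc.QCA cc.B01) (l0 : LiftData L0 L01) (l1 : LiftData L1 L01')
    (e01 : Nonempty (QC2.Iso L01 L01')) :
    ∃ F1 : ClassFamily (chiCut D hc0) c,
      (∀ (x : SchemeHomOver (𝟙 (Spec (CommRingCat.of k))) c) (hx : x.1 ⁻¹ᵁ cc.U0 = ⊤)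
        {L' : cc.QCA k} (hL' : L'.IsLine)
        (_ : letI := (CurveHyp80.evalAlg0 cc x hx).toRingHom.toAlgebra
          LiftData L0 L'),
        lineClassPt D (chiCut D hc0) Q
            (clsAt F1 (CommRingCat.of k) x.1 (𝟙 (Spec (CommRingCat.of k))) x.2) =
          LinePic.mk (cc.chartA k) L' hL') ∧
      (∀ (x : SchemeHomOver (𝟙 (Spec (CommRingCat.of k))) c) (hx : x.1 ⁻¹ᵁ cc.U1 = ⊤)
        {L' : cc.QCA k} (hL' : L'.IsLine)
        (_ : letI := (CurveHyp80.evalAlg1 cc x hx).toRingHom.toAlgebra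
          LiftData L1 L'),
        lineClassPt D (chiCut D hc0) Q
            (clsAt F1 (CommRingCat.of k) x.1 (𝟙 (Spec (CommRingCat.of k))) x.2) =
          LinePic.mk (cc.chartA k) L' hL') := by
  obtain ⟨M₀, N0, N1, hM₀, hC0, hC1, hloc0, hloc1⟩ :=
    exists_onePointBundle D hc0 hS L0 hL0 hχ0 L1 hL1 hχ1 L01 L01' l0 l1 e01
  have hcls : ∀ x : SchemeHomOver (𝟙 (Spec (CommRingCat.of k))) c,
      clsAt (ofBundle M₀ hM₀) (CommRingCat.of k) x.1 (𝟙 (Spec (CommRingCat.of k))) x.2 =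
        PClass.map (chiCut D hc0) x (PClass.mk (chiCut D hc0) c M₀ hM₀) := fun x =>
    clsAt_ofClass _ _ _ _ _
  refine ⟨ofBundle M₀ hM₀, ?_, ?_⟩
  · intro x hx L' hL' hl
    have hp : x.1 (default : Spec (CommRingCat.of k)) ∈ cc.U0 := by
      have : (default : Spec (CommRingCat.of k)) ∈ x.1 ⁻¹ᵁ cc.U0 := by rw [hx]; trivial
      exact this
    obtain ⟨W, hW, hpW, e⟩ := hloc0 _ hp
    rw [hcls]
    exact JGroup85Eval.lineClassPt_eval_chart0 D (chiCut D hc0) Q M₀ hM₀ N0 hC0 hW (isoOver0 cc)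
      rfl e x default hpW hx hL' hl
  · intro x hx L' hL' hl
    have hp : x.1 (default : Spec (CommRingCat.of k)) ∈ cc.U1 := by
      have : (default : Spec (CommRingCat.of k)) ∈ x.1 ⁻¹ᵁ cc.U1 := by rw [hx]; trivial
      exact this
    obtain ⟨W, hW, hpW, e⟩ := hloc1 _ hp
    rw [hcls]
    exact JGroup85Eval.lineClassPt_eval_chart1 D (chiCut D hc0) Q M₀ hM₀ N1 hC1 hW (isoOver1 cc)
      rfl e x default hpW hx hL' hl

end Fermat.Agent.Jac.AbelJacobi81
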