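/-
Fermat/Agent/Jac/AbelJacobi81/ChartPoints.lean  (helper81) -- S25 programme, brick Q3a/Q3c.

Points of the curve with values in a `k`-algebra `A` which land in one of the two charts come from
`k`-algebra homomorphisms `B_i → A`; field-valued points always land in one of the charts.
-/
import Mathlib
import Fermat.Agent.Jac.AbelJacobi81.OnePoint

set_option autoImplicit false

universe u

open CategoryTheory CategoryTheory.Limits AlgebraicGeometry AlgebraicGeometry.RelPicard
  NeronModelInfra TopologicalSpace Opposite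

noncomputable section

namespace Fermat.Agent.Jac.AbelJacobi81

open TwoCoverGammaSetting BridgeCharts33

variable {k : Type u} [Field k] {C : Scheme.{u}} {c : C ⟶ Spec (CommRingCat.of k)}
  {ε : SchemeHomOver (𝟙 (Spec (CommRingCat.of k))) c} (cc : CurveCharts c ε)

theorem specStr_self : specStr (k := k) k = 𝟙 (Spec (CommRingCat.of k)) := by
  unfold specStr
  rw [Algebra.algebraMap_self]
  exact Spec.map_id _

/-- A morphism `g : Spec A ⟶ Spec B` over `Spec k` is `Spec` of a `k`-algebra homomorphism. -/
theorem exists_algHom_of_specHom {A B : Type u} [CommRing A] [Algebra k A] [CommRing B]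
    [Algebra k B] (g : SchemeHomOver (specStr (k := k) A) (specStr (k := k) B)) :
    ∃ f : B →ₐ[k] A, (specOver f).1 = g.1 := by
  have hφ : Spec.map (Spec.preimage g.1) = g.1 := Spec.map_preimage g.1
  have h1 : CommRingCat.ofHom (algebraMap k B) ≫ Spec.preimage g.1 =
      CommRingCat.ofHom (algebraMap k A) := by
    apply Spec.map_injective
    rw [Spec.map_comp, hφ]
    exact g.2
  refine ⟨{ toRingHom := (Spec.preimage g.1).hom
            commutes' := fun r => ?_ }, ?_⟩
  · exact congrArg (fun ψ => ψ.hom r) h1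
  · exact hφ

/-- A point of the curve with values in `A` whose image lies in the first chart comes from a
`k`-algebra homomorphism `B0 → A`. -/
theorem exists_algHom_of_range_le0 (A : Type u) [CommRing A] [Algebra k A]
    (x : SchemeHomOver (specStr (k := k) A) c) (h : Set.range x.1 ⊆ (cc.U0 : Set C)) :
    ∃ f : cc.B0 →ₐ[k] A, (specOver f).1 ≫ fromSpec0 cc = x.1 := by
  have hr : Set.range x.1 ⊆ Set.range (fromSpec0 cc) := by
    rw [range_fromSpec0]
    exact h
  have hfac : IsOpenImmersion.lift (fromSpec0 cc) x.1 hr ≫ fromSpec0 cc = x.1 :=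
    IsOpenImmersion.lift_fac _ _ _
  obtain ⟨f, hf⟩ := exists_algHom_of_specHom
    (⟨IsOpenImmersion.lift (fromSpec0 cc) x.1 hr, by
      rw [← fromSpec0_str, ← Category.assoc, hfac, x.2]⟩ :
      SchemeHomOver (specStr (k := k) A) (specStr (k := k) cc.B0))
  exact ⟨f, by rw [hf]; exact hfac⟩

/-- A point of the curve with values in `A` whose image lies in the second chart comes from a
`k`-algebra homomorphism `B1 → A`. -/
theorem exists_algHom_of_range_le1 (A : Type u) [CommRing A] [Algebra k A]
    (x : SchemeHomOver (specStr (k := k) A) c) (h : Set.range x.1 ⊆ (cc.U1 : Set C)) :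
    ∃ f : cc.B1 →ₐ[k] A, (specOver f).1 ≫ fromSpec1 cc = x.1 := by
  have hr : Set.range x.1 ⊆ Set.range (fromSpec1 cc) := by
    rw [range_fromSpec1]
    exact h
  have hfac : IsOpenImmersion.lift (fromSpec1 cc) x.1 hr ≫ fromSpec1 cc = x.1 :=
    IsOpenImmersion.lift_fac _ _ _
  obtain ⟨f, hf⟩ := exists_algHom_of_specHom
    (⟨IsOpenImmersion.lift (fromSpec1 cc) x.1 hr, by
      rw [← fromSpec1_str, ← Category.assoc, hfac, x.2]⟩ :
      SchemeHomOver (specStr (k := k) A) (specStr (k := k) cc.B1))
  exact ⟨f, by rw [hf]; exact hfac⟩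

/-- **Field-valued points of the curve lie in one of the two charts.** -/
theorem exists_chart_of_fieldPoint (K : Type u) [Field K] [Algebra k K]
    (x : SchemeHomOver (specStr (k := k) K) c) :
    (∃ f : cc.B0 →ₐ[k] K, (specOver f).1 ≫ fromSpec0 cc = x.1) ∨
      (∃ f : cc.B1 →ₐ[k] K, (specOver f).1 ≫ fromSpec1 cc = x.1) := by
  have hp : x.1 (default : Spec (CommRingCat.of K)) ∈ cc.U0 ⊔ cc.U1 := by
    rw [cc.cover]; trivial
  have hrange : ∀ U : C.Opens, x.1 (default : Spec (CommRingCat.of K)) ∈ U →
      Set.range x.1 ⊆ (U : Set C) := by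
    rintro U hU _ ⟨q, rfl⟩
    rw [Unique.eq_default q]
    exact hU
  rcases hp with h0 | h1
  · exact Or.inl (exists_algHom_of_range_le0 cc K x (hrange cc.U0 h0))
  · exact Or.inr (exists_algHom_of_range_le1 cc K x (hrange cc.U1 h1))

end Fermat.Agent.Jac.AbelJacobi81
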