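/-
Fermat/Agent/Jac/AbelJacobi81/GlueCharts.lean (helper81)

Brick Q3a, scheme side, parts (T) + (G): a point of the functor of points `F hS P` over a scheme
`X` covered by two affine opens `U0`, `U1` is the same as two points over `Spec Γ(X, U0)` and
`Spec Γ(X, U1)` which agree over `Spec Γ(X, U0 ⊓ U1)`.  (Sheaf property of `F` + transport along
`IsAffineOpen.isoSpec`.)
-/
import Mathlib
import Fermat.Agent.Jac.RepSheaf81

set_option autoImplicit false

noncomputable section

universe u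

open CategoryTheory CategoryTheory.Limits AlgebraicGeometry AlgebraicGeometry.RelPicard
  NeronModelInfra GoodReductionJacobian Opposite

namespace Fermat.Agent.Jac.AbelJacobi81

open Fermat.Agent.Jac.RepFunctor Fermat.Agent.Jac.RepCriteria Fermat.Agent.Jac.RepSheaf81

/-! ### Gluing over a two-element open cover, for presheaves of types -/

section TwoOpens

variable {F : Scheme.{u}ᵒᵖ ⥤ Type u}

/-- Transport of a compatibility on an intersection along an equality of opens. -/
theorem map_homOfLE_congr {T : Scheme.{u}} {W W' V V' : T.Opens} (hW : W = W') (hV : W ≤ V)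
    (hV' : W ≤ V') (hV2 : W' ≤ V) (hV2' : W' ≤ V') (s : F.obj (op V.toScheme))
    (s' : F.obj (op V'.toScheme))
    (h : F.map (T.homOfLE hV).op s = F.map (T.homOfLE hV').op s') :
    F.map (T.homOfLE hV2).op s = F.map (T.homOfLE hV2').op s' := by
  subst hW
  exact h

/-- The two-element family of opens. -/
def pairU {T : Scheme.{u}} (V0 V1 : T.Opens) : ULift.{u} Bool → T.Opens :=
  fun i => bif i.down then V1 else V0

theorem iSup_pairU {T : Scheme.{u}} (V0 V1 : T.Opens) (hcov : V0 ⊔ V1 = ⊤) :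
    ⨆ i, pairU V0 V1 i = ⊤ := by
  rw [eq_top_iff, ← hcov]
  exact sup_le (le_iSup (pairU V0 V1) ⟨false⟩) (le_iSup (pairU V0 V1) ⟨true⟩)

/-- The two-element family of sections. -/
def pairS {T : Scheme.{u}} (V0 V1 : T.Opens) (s0 : F.obj (op V0.toScheme))
    (s1 : F.obj (op V1.toScheme)) : ∀ i : ULift.{u} Bool, F.obj (op (pairU V0 V1 i).toScheme)
  | ⟨false⟩ => s0
  | ⟨true⟩ => s1

/-- Gluing of two sections over a two-element open cover. -/
theorem exists_glue_two (hglue : OpensGlue F) {T : Scheme.{u}} (V0 V1 : T.Opens)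
    (hcov : V0 ⊔ V1 = ⊤) (s0 : F.obj (op V0.toScheme)) (s1 : F.obj (op V1.toScheme))
    (h : F.map (T.homOfLE (inf_le_left : V0 ⊓ V1 ≤ V0)).op s0 =
      F.map (T.homOfLE (inf_le_right : V0 ⊓ V1 ≤ V1)).op s1) :
    ∃ s : F.obj (op T), F.map V0.ι.op s = s0 ∧ F.map V1.ι.op s = s1 := by
  obtain ⟨s, hs⟩ := hglue T (pairU V0 V1) (iSup_pairU V0 V1 hcov) (pairS V0 V1 s0 s1) (by
    rintro ⟨i⟩ ⟨j⟩
    cases i <;> cases j
    · rfl
    · exact h
    · exact map_homOfLE_congr (inf_comm V0 V1) inf_le_right inf_le_left inf_le_left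
        inf_le_right s1 s0 h.symm
    · rfl)
  exact ⟨s, hs ⟨false⟩, hs ⟨true⟩⟩

/-- Separatedness over a two-element open cover. -/
theorem ext_two (hsep : OpensSeparated F) {T : Scheme.{u}} (V0 V1 : T.Opens)
    (hcov : V0 ⊔ V1 = ⊤) (s s' : F.obj (op T)) (h0 : F.map V0.ι.op s = F.map V0.ι.op s')
    (h1 : F.map V1.ι.op s = F.map V1.ι.op s') : s = s' := by
  refine hsep T (pairU V0 V1) (iSup_pairU V0 V1 hcov) s s' ?_
  rintro ⟨i⟩
  cases i
  · exact h0
  · exact h1

end TwoOpens

/-! ### Points of the functor of points over a scheme covered by two affine opens -/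

section Charts

variable {k : Type u} [Field k] {C : Scheme.{u}} {c : C ⟶ Spec (CommRingCat.of k)}
  {ε : SchemeHomOver (𝟙 (Spec (CommRingCat.of k))) c}
  (hS : ClassesIsSheaf c ε) (P : SubPicCondition c ε)

theorem fst_pull {T T' : Scheme.{u}} (φ : T' ⟶ T) (p : FObj hS P T) :
    (pull hS P φ p).1 = φ ≫ p.1 := rfl

/-- **Points over a scheme covered by two affine opens.**  Two points of the functor of points
over `Spec Γ(X, U0)` and `Spec Γ(X, U1)` which agree over `Spec Γ(X, U0 ⊓ U1)` come from a unique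
point over `X`. -/
theorem existsUnique_point_of_charts (hP : IsLocalCondition P) {X : Scheme.{u}}
    {U0 U1 : X.Opens} (hU0 : IsAffineOpen U0) (hU1 : IsAffineOpen U1)
    (hU01 : IsAffineOpen (U0 ⊓ U1)) (hcov : U0 ⊔ U1 = ⊤)
    (n0 : FObj hS P (Spec Γ(X, U0))) (n1 : FObj hS P (Spec Γ(X, U1)))
    (h : pull hS P (Spec.map (X.presheaf.map (homOfLE (inf_le_left : U0 ⊓ U1 ≤ U0)).op)) n0 =
      pull hS P (Spec.map (X.presheaf.map (homOfLE (inf_le_right : U0 ⊓ U1 ≤ U1)).op)) n1) :
    ∃! m : FObj hS P X, pull hS P hU0.fromSpec m = n0 ∧ pull hS P hU1.fromSpec m = n1 := by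
  -- compatibility of `isoSpec` with restriction
  have hres : ∀ {V W : X.Opens} (hV : IsAffineOpen V) (hW : IsAffineOpen W) (hWV : W ≤ V),
      X.homOfLE hWV ≫ hV.isoSpec.hom =
        hW.isoSpec.hom ≫ Spec.map (X.presheaf.map (homOfLE hWV).op) := by
    intro V W hV hW hWV
    rw [← cancel_mono hV.fromSpec, Category.assoc, Category.assoc,
      IsAffineOpen.isoSpec_hom_fromSpec, Scheme.homOfLE_ι, hV.map_fromSpec hW,
      IsAffineOpen.isoSpec_hom_fromSpec]
  -- the sections over the two opens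
  let s0 : FObj hS P U0.toScheme := pull hS P hU0.isoSpec.hom n0
  let s1 : FObj hS P U1.toScheme := pull hS P hU1.isoSpec.hom n1
  have hcompat : pull hS P (X.homOfLE (inf_le_left : U0 ⊓ U1 ≤ U0)) s0 =
      pull hS P (X.homOfLE (inf_le_right : U0 ⊓ U1 ≤ U1)) s1 := by
    rw [← pull_comp, ← pull_comp, hres hU0 hU01 inf_le_left, hres hU1 hU01 inf_le_right,
      pull_comp, pull_comp, h]
  obtain ⟨m, hm0, hm1⟩ := exists_glue_two (F := F hS P) (opensGlue_F hS P hP) U0 U1 hcov
    s0 s1 hcompat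
  have hm0' : pull hS P U0.ι m = s0 := hm0
  have hm1' : pull hS P U1.ι m = s1 := hm1
  have hback : ∀ {V : X.Opens} (hV : IsAffineOpen V) (n : FObj hS P (Spec Γ(X, V)))
      (m' : FObj hS P X), pull hS P V.ι m' = pull hS P hV.isoSpec.hom n →
      pull hS P hV.fromSpec m' = n := by
    intro V hV n m' hm'
    rw [← hV.isoSpec_inv_ι, pull_comp, hm', ← pull_comp, Iso.inv_hom_id, pull_id]
  refine ⟨m, ⟨hback hU0 n0 m hm0', hback hU1 n1 m hm1'⟩, ?_⟩
  rintro m' ⟨h0', h1'⟩
  refine ext_two (F := F hS P) (opensSeparated_F hS P) U0 U1 hcov m' m ?_ ?_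
  · change pull hS P U0.ι m' = pull hS P U0.ι m
    rw [hm0', ← hU0.isoSpec_hom_fromSpec, pull_comp, h0']
  · change pull hS P U1.ι m' = pull hS P U1.ι m
    rw [hm1', ← hU1.isoSpec_hom_fromSpec, pull_comp, h1']

/-- The structure morphism of the glued point. -/
theorem fst_eq_of_charts {X : Scheme.{u}} {U0 U1 : X.Opens} (hU0 : IsAffineOpen U0)
    (hU1 : IsAffineOpen U1) (hcov : U0 ⊔ U1 = ⊤) (x : X ⟶ Spec (CommRingCat.of k))
    (m : FObj hS P X) (h0 : (pull hS P hU0.fromSpec m).1 = hU0.fromSpec ≫ x)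
    (h1 : (pull hS P hU1.fromSpec m).1 = hU1.fromSpec ≫ x) : m.1 = x := by
  have e : ∀ {V : X.Opens} (hV : IsAffineOpen V),
      (pull hS P hV.fromSpec m).1 = hV.fromSpec ≫ x → V.ι ≫ m.1 = V.ι ≫ x := by
    intro V hV hh
    rw [fst_pull] at hh
    rw [← hV.isoSpec_hom_fromSpec, Category.assoc, Category.assoc, hh]
  have := hom_ext_of_opens (pairU U0 U1) (iSup_pairU U0 U1 hcov) m.1 x (by
    rintro ⟨i⟩
    cases i
    · exact e hU0 h0
    · exact e hU1 h1)
  exact this

end Charts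

end Fermat.Agent.Jac.AbelJacobi81
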