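/-
Fermat/Agent/Jac/AbelJacobi81/TwoGlue.lean (helper81)

Brick Q3a, scheme side, part (G): gluing a rigidified line bundle over a base `T` from rigidified
bundles over the two members of an open cover `T = V0 ∪ V1` which are isomorphic over `V0 ∩ V1`
(from `ClassesIsSheaf.glue`; no cocycle condition for two opens).
-/
import Mathlib
import Fermat.Agent.Jac.RepInterface

set_option autoImplicit false

noncomputable section

universe u

open CategoryTheory CategoryTheory.Limits AlgebraicGeometry AlgebraicGeometry.RelPicard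
  NeronModelInfra GoodReductionJacobian

namespace Fermat.Agent.Jac.AbelJacobi81

variable {k : Type u} [Field k] {C : Scheme.{u}} {c : C ⟶ Spec (CommRingCat.of k)}
  {ε : SchemeHomOver (𝟙 (Spec (CommRingCat.of k))) c}

/-- Transport of an isomorphism of restrictions along an equality of the smaller open. -/
theorem iso_openInclLE_congr {T : Scheme.{u}} (t : T ⟶ Spec (CommRingCat.of k))
    {W W' V V' : T.Opens} (hW : W = W') (hV : W ≤ V) (hV' : W ≤ V') (hV2 : W' ≤ V)
    (hV2' : W' ≤ V') (M : RigidifiedLineBundle c ε (V.ι ≫ t))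
    (M' : RigidifiedLineBundle c ε (V'.ι ≫ t))
    (e : Nonempty ((M.pullbackAlong (openInclLE t hV)).L ≅
      (M'.pullbackAlong (openInclLE t hV')).L)) :
    Nonempty ((M.pullbackAlong (openInclLE t hV2)).L ≅
      (M'.pullbackAlong (openInclLE t hV2')).L) := by
  subst hW
  exact e

/-- The two-element family of opens. -/
def twoU {T : Scheme.{u}} (V0 V1 : T.Opens) : ULift.{u} Bool → T.Opens :=
  fun i => bif i.down then V1 else V0

/-- The two-element family of bundles. -/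
def twoM {T : Scheme.{u}} (t : T ⟶ Spec (CommRingCat.of k)) (V0 V1 : T.Opens)
    (M0 : RigidifiedLineBundle c ε (V0.ι ≫ t)) (M1 : RigidifiedLineBundle c ε (V1.ι ≫ t)) :
    ∀ i : ULift.{u} Bool, RigidifiedLineBundle c ε ((twoU V0 V1 i).ι ≫ t)
  | ⟨false⟩ => M0
  | ⟨true⟩ => M1

/-- **Gluing over a two-element open cover.** -/
theorem exists_bundle_of_twoCover (hS : ClassesIsSheaf c ε) {T : Scheme.{u}}
    (t : T ⟶ Spec (CommRingCat.of k)) (V0 V1 : T.Opens) (hcov : V0 ⊔ V1 = ⊤)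
    (M0 : RigidifiedLineBundle c ε (V0.ι ≫ t)) (M1 : RigidifiedLineBundle c ε (V1.ι ≫ t))
    (h01 : Nonempty
      ((M0.pullbackAlong (openInclLE t (inf_le_left : V0 ⊓ V1 ≤ V0))).L ≅
        (M1.pullbackAlong (openInclLE t (inf_le_right : V0 ⊓ V1 ≤ V1))).L)) :
    ∃ M : RigidifiedLineBundle c ε t,
      Nonempty ((restrictOpen M V0).L ≅ M0.L) ∧ Nonempty ((restrictOpen M V1).L ≅ M1.L) := by
  have hU : ⨆ i, twoU V0 V1 i = ⊤ := by
    rw [eq_top_iff, ← hcov]
    exact sup_le (le_iSup (twoU V0 V1) ⟨false⟩) (le_iSup (twoU V0 V1) ⟨true⟩)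
  obtain ⟨M, hM⟩ := hS.glue t (twoU V0 V1) hU (twoM t V0 V1 M0 M1) (by
    rintro ⟨i⟩ ⟨j⟩
    cases i <;> cases j
    · exact ⟨Iso.refl _⟩
    · exact h01
    · obtain ⟨e⟩ := h01
      exact iso_openInclLE_congr t (inf_comm V0 V1) inf_le_right inf_le_left inf_le_left
        inf_le_right M1 M0 ⟨e.symm⟩
    · exact ⟨Iso.refl _⟩)
  exact ⟨M, hM ⟨false⟩, hM ⟨true⟩⟩

/-- Membership in a local cut of a bundle glued from two opens. -/
theorem mem_of_twoCover {P : SubPicCondition c ε} (hP : IsLocalCondition P) {T : Scheme.{u}}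
    (t : T ⟶ Spec (CommRingCat.of k)) (V0 V1 : T.Opens) (hcov : V0 ⊔ V1 = ⊤)
    (M : RigidifiedLineBundle c ε t) (h0 : P.P (V0.ι ≫ t) (restrictOpen M V0))
    (h1 : P.P (V1.ι ≫ t) (restrictOpen M V1)) : P.P t M := by
  have hU : ⨆ i, twoU V0 V1 i = ⊤ := by
    rw [eq_top_iff, ← hcov]
    exact sup_le (le_iSup (twoU V0 V1) ⟨false⟩) (le_iSup (twoU V0 V1) ⟨true⟩)
  refine hP t M (twoU V0 V1) hU ?_
  rintro ⟨i⟩
  cases i
  · exact h0
  · exact h1

end Fermat.Agent.Jac.AbelJacobi81
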